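import Fermat.Agent.MU.S14.Crossing.CycFrob
import Fermat.Agent.S14.FinalA

section MergeWrap_S14_Crossing_ChiNormMH -- from S14/Crossing/ChiNormMH.lean

/-!
# S14 crossing, piece C10: `ChiNormMH` (helper13)
-/

set_option autoImplicit false
set_option linter.unusedSectionVars false

open NumberField Polynomial
open scoped nonZeroDivisors IntermediateField

namespace Fermat.Agent.S14.Cross

section c10

variable {L : Type} [Field L] [NumberField L] [IsGalois ℚ L] {ζ : L} {m : ℕ} [NeZero m]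

/-- Frobenius elements of `Ω/M_H`: an element of `H`, trivial on `L`, which is a Frobenius at
a prime `P` above a given nonzero prime of `M_H`. -/
theorem c10_exists_frob (H : Subgroup (Gam L ζ m)) (𝔓 : Ideal (𝓞 (MH L ζ m H)))
    (h𝔓 : 𝔓.IsPrime) (h𝔓0 : 𝔓 ≠ ⊥) :
    ∃ (g : Gam L ζ m) (P : Ideal (𝓞 (Om L m))), g ∈ H ∧ resL L ζ m g = 1 ∧ P.IsPrime ∧
      P.under (𝓞 (MH L ζ m H)) = 𝔓 ∧ IsFrobOm g P (Ideal.absNorm 𝔓) := by
  have h𝔓max : 𝔓.IsMaximal := h𝔓.isMaximal h𝔓0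
  obtain ⟨P, hPmax, hPover⟩ :=
    Ideal.exists_maximal_ideal_liesOver_of_isIntegral (S := 𝓞 (Om L m)) 𝔓
  have hP : P.IsPrime := hPmax.isPrime
  have hP𝔓 : P.under (𝓞 (MH L ζ m H)) = 𝔓 := hPover.over.symm
  have hP0 : P ≠ ⊥ := Ideal.ne_bot_of_liesOver_of_ne_bot h𝔓0 P
  have : Finite (𝓞 (Om L m) ⧸ P) := Ideal.finiteQuotientOfFreeOfNeBot P hP0
  obtain ⟨σ, hσ⟩ := IsArithFrobAt.exists_of_isInvariant (𝓞 (MH L ζ m H))
    (Om L m ≃ₐ[MH L ζ m H] Om L m) P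
  -- `σ` as an element of `Gal(Ω/E_H)` and of `Gal(Ω/K)`
  set σE : Om L m ≃ₐ[EH L ζ m H] Om L m := σ.restrictScalars (EH L ζ m H) with hσE
  set g : Gam L ζ m := σE.restrictScalars ℚ⟮ζ⟯ with hg
  have hgx : ∀ x : Om L m, g x = σ x := fun x => rfl
  have hgH : g ∈ H := by
    have h1 : g ∈ (EH L ζ m H).fixingSubgroup := by
      intro x
      exact σE.commutes x
    rwa [IntermediateField.fixingSubgroup_fixedField] at h1
  have hres : resL L ζ m g = 1 := by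
    ext x
    apply (algebraMap L (Om L m)).injective
    rw [resL_commutes, AlgEquiv.one_apply, hgx]
    exact σ.commutes (algebraMap L (MH L ζ m H) x)
  refine ⟨g, P, hgH, hres, hP, hP𝔓, fun x => ?_⟩
  have h := hσ x
  rw [hP𝔓] at h
  have hcard : Nat.card (𝓞 (MH L ζ m H) ⧸ 𝔓) = Ideal.absNorm 𝔓 := by
    rw [Ideal.absNorm_apply, Submodule.cardQuot_apply]
  rw [hcard] at h
  exact ⟨_, h, rfl⟩

/-- `χ` kills the norm of a nonzero prime of `M_H` prime to `d`. -/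
theorem c10_prime (H : Subgroup (Gam L ζ m)) (ψ : (L ≃ₐ[ℚ⟮ζ⟯] L) →* ℂˣ) (d : ℕ) (hd : d ∣ m)
    (χ : DirichletCharacter ℂ d) (hH : H ≤ (Theta L ζ m ψ hd χ).ker)
    (𝔓 : Ideal (𝓞 (MH L ζ m H))) (h𝔓 : 𝔓.IsPrime) (h𝔓0 : 𝔓 ≠ ⊥)
    (hcop : (Ideal.absNorm 𝔓).Coprime d) : χ ((Ideal.absNorm 𝔓 : ℕ) : ZMod d) = 1 := by
  obtain ⟨g, P, hgH, hres, hP, hP𝔓, hg⟩ := c10_exists_frob H 𝔓 h𝔓 h𝔓0
  -- `d ∉ P`
  have hNP : ((Ideal.absNorm 𝔓 : ℕ) : 𝓞 (Om L m)) ∈ P := by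
    have h1 : ((Ideal.absNorm 𝔓 : ℕ) : 𝓞 (MH L ζ m H)) ∈ P.under (𝓞 (MH L ζ m H)) := by
      rw [hP𝔓]
      exact Ideal.absNorm_mem 𝔓
    rw [Ideal.under_def, Ideal.mem_comap, map_natCast] at h1
    exact h1
  have hdP : (d : 𝓞 (Om L m)) ∉ P := by
    intro hdP
    have h1 : ((Nat.gcd (Ideal.absNorm 𝔓) d : ℤ) : 𝓞 (Om L m)) ∈ P := by
      rw [Nat.gcd_eq_gcd_ab]
      push_cast
      exact P.add_mem (P.mul_mem_right _ hNP) (P.mul_mem_right _ hdP)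
    rw [hcop] at h1
    apply hP.ne_top
    rw [Ideal.eq_top_iff_one]
    simpa using h1
  have hc := cycFrob L ζ m g P (Ideal.absNorm 𝔓) d hd hP hg hdP
  -- `Θ g = 1`
  have hΘ : Theta L ζ m ψ hd χ g = 1 := hH hgH
  have hχ : χ.toUnitHom (ZMod.unitsMap hd (cyc L ζ m g)) = 1 := by
    have h1 : Theta L ζ m ψ hd χ g =
        ψ (resL L ζ m g) * (χ.toUnitHom (ZMod.unitsMap hd (cyc L ζ m g)))⁻¹ := rfl
    rw [h1, hres, map_one, one_mul, inv_eq_one] at hΘ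
    exact hΘ
  rw [← hc, ← MulChar.coe_toUnitHom, hχ, Units.val_one]

end c10

/-- **(C10)** `ChiNormMH`. -/
theorem chiNormMH : ChiNormMH := by
  intro L _ _ _ ζ m _ H ψ d hd χ hH I
  induction I using UniqueFactorizationMonoid.induction_on_prime with
  | h₁ =>
    intro hcop
    have h0 : Ideal.absNorm (0 : Ideal (𝓞 (MH L ζ m H))) = 0 := by
      rw [Ideal.zero_eq_bot, Ideal.absNorm_bot]
    rw [h0] at hcop ⊢
    have hd1 : d = 1 := by simpa using hcop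
    subst hd1
    have : ((0 : ℕ) : ZMod 1) = 1 := Subsingleton.elim _ _
    rw [this, map_one]
  | h₂ J hJu =>
    intro _
    have hJ : J = ⊤ := by
      rw [← Ideal.one_eq_top]
      exact isUnit_iff_eq_one.mp hJu
    rw [hJ, Ideal.absNorm_top, Nat.cast_one, map_one]
  | h₃ J 𝔓 hJ0 h𝔓 ih =>
    intro hcop
    have hnorm : Ideal.absNorm (𝔓 * J) = Ideal.absNorm 𝔓 * Ideal.absNorm J := map_mul _ _ _
    rw [hnorm] at hcop ⊢
    have hcop𝔓 : (Ideal.absNorm 𝔓).Coprime d := Nat.Coprime.coprime_mul_right hcop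
    have hcopJ : (Ideal.absNorm J).Coprime d := Nat.Coprime.coprime_mul_left hcop
    rw [Nat.cast_mul, map_mul, ih hcopJ, mul_one]
    exact c10_prime H ψ d hd χ hH 𝔓 (Ideal.isPrime_of_prime h𝔓) h𝔓.ne_zero hcop𝔓

end Fermat.Agent.S14.Cross
end MergeWrap_S14_Crossing_ChiNormMH
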