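import Fermat.Agent.S14.CrossingInterface

section MergeWrap_S14_Crossing_Setup -- from S14/Crossing/Setup.lean

/-!
# S14, crossing with cyclotomic fields: the common set-up

`L/ℚ` Galois number field, `ζ ∈ L`, `K = ℚ⟮ζ⟯`, `m ≠ 0`.

* `Om L m = L(ζ_m)` (`CyclotomicField m L`), Galois over `ℚ` and over `K`;
* `Gam L ζ m = Gal(Ω/K)`, `resL : Gam → Gal(L/K)`, `cyc : Gam → (ℤ/m)ˣ`;
* for a subgroup `H ≤ Gam`: `EH = Ω^H` (an intermediate field of `Ω/K`) and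
  `MH = Ω^(H ∩ ker resL) = L · EH` (an intermediate field of `Ω/EH`), with its `L`-algebra
  structure;
* for a character `ψ` of `Gal(L/K)` and a Dirichlet character `χ` mod `d ∣ m`:
  `Theta = (ψ ∘ resL) * (χ ∘ cyc)⁻¹ : Gam → ℂˣ`.
-/

set_option autoImplicit false
set_option linter.unusedSectionVars false

open NumberField Polynomial
open scoped nonZeroDivisors IntermediateField

noncomputable section

namespace Fermat.Agent.S14.Cross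

variable (L : Type) [Field L] [NumberField L] [IsGalois ℚ L] (ζ : L)
variable (m : ℕ) [NeZero m]

/-- The big field `Ω = L(ζ_m)`. -/
abbrev Om : Type := CyclotomicField m L

instance isGalois_L_Om : IsGalois L (Om L m) := IsCyclotomicExtension.isGalois {m} L (Om L m)

theorem isGalois_rat_Om : IsGalois ℚ (Om L m) := by
  obtain ⟨f, hfsep, hf⟩ := IsGalois.is_separable_splitting_field ℚ L
  have hf0 : f ≠ 0 := hfsep.ne_zero
  have hg0 : (X ^ m - 1 : ℚ[X]) ≠ 0 := by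
    have := X_pow_sub_C_ne_zero (NeZero.pos m) (1 : ℚ)
    simpa using this
  have h1 : IsSplittingField L (Om L m) ((X ^ m - 1 : ℚ[X]).map (algebraMap ℚ L)) := by
    have := IsCyclotomicExtension.isSplittingField_X_pow_sub_one m L (Om L m)
    simpa using this
  have h2 := IsSplittingField.mul (F := ℚ) (K := L) (L := Om L m) f (X ^ m - 1) hf0 hg0
  have : Normal ℚ (Om L m) := Normal.of_isSplittingField (f * (X ^ m - 1))
  exact ⟨⟩

instance isGalois_rat_Om' : IsGalois ℚ (Om L m) := isGalois_rat_Om L m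

instance isGalois_K_Om : IsGalois ℚ⟮ζ⟯ (Om L m) :=
  IsGalois.tower_top_of_isGalois ℚ ℚ⟮ζ⟯ (Om L m)

/-- `Γ = Gal(Ω/K)`. -/
abbrev Gam : Type := Om L m ≃ₐ[ℚ⟮ζ⟯] Om L m

/-- Restriction `Gal(Ω/K) → Gal(L/K)`. -/
def resL : Gam L ζ m →* (L ≃ₐ[ℚ⟮ζ⟯] L) := AlgEquiv.restrictNormalHom L

theorem resL_commutes (g : Gam L ζ m) (x : L) :
    algebraMap L (Om L m) (resL L ζ m g x) = g (algebraMap L (Om L m) x) :=
  AlgEquiv.restrictNormal_commutes g L x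

/-- The distinguished primitive `m`-th root of unity of `Ω`. -/
def zetaOm : Om L m := IsCyclotomicExtension.zeta m L (Om L m)

theorem zetaOm_spec : IsPrimitiveRoot (zetaOm L m) m :=
  IsCyclotomicExtension.zeta_spec m L (Om L m)

/-- The cyclotomic character `Gal(Ω/K) → (ℤ/m)ˣ`: `g ζ_m = ζ_m ^ (cyc g)`. -/
def cyc : Gam L ζ m →* (ZMod m)ˣ := IsPrimitiveRoot.autToPow ℚ⟮ζ⟯ (zetaOm_spec L m)

theorem cyc_spec (g : Gam L ζ m) :
    g (zetaOm L m) = zetaOm L m ^ ((cyc L ζ m g : ZMod m).val) := by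
  have := IsPrimitiveRoot.autToPow_spec ℚ⟮ζ⟯ (zetaOm_spec L m) g
  exact this.symm

/-- The twisting character `Θ = (ψ ∘ resL) * (χ ∘ cyc)⁻¹` attached to a character `ψ` of
`Gal(L/K)` and a Dirichlet character `χ` modulo a divisor `d` of `m`. -/
def Theta (ψ : (L ≃ₐ[ℚ⟮ζ⟯] L) →* ℂˣ) {d : ℕ} (hd : d ∣ m) (χ : DirichletCharacter ℂ d) :
    Gam L ζ m →* ℂˣ :=
  (ψ.comp (resL L ζ m)) * ((χ.toUnitHom.comp ((ZMod.unitsMap hd).comp (cyc L ζ m))))⁻¹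

section fields

variable (H : Subgroup (Gam L ζ m))

/-- `E_H = Ω^H`. -/
abbrev EH : IntermediateField ℚ⟮ζ⟯ (Om L m) := IntermediateField.fixedField H

/-- The elements of `Gal(Ω/E_H)` acting trivially on `L`. -/
def HL : Subgroup (Om L m ≃ₐ[EH L ζ m H] Om L m) :=
  ((resL L ζ m).comp (AlgEquiv.restrictScalarsHom ℚ⟮ζ⟯)).ker

instance : (HL L ζ m H).Normal := by
  unfold HL
  infer_instance

/-- `M_H = Ω^(H ∩ ker resL) = L · E_H`, as an intermediate field of `Ω/E_H`. -/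
abbrev MH : IntermediateField (EH L ζ m H) (Om L m) := IntermediateField.fixedField (HL L ζ m H)

instance isGalois_EH_MH : IsGalois (EH L ζ m H) (MH L ζ m H) :=
  IsGalois.of_fixedField_normal_subgroup (HL L ζ m H)

theorem algebraMap_mem_MH (x : L) : algebraMap L (Om L m) x ∈ MH L ζ m H := by
  rw [IntermediateField.mem_fixedField_iff]
  intro g hg
  have hg' : resL L ζ m (AlgEquiv.restrictScalarsHom ℚ⟮ζ⟯ g) = 1 := hg
  have := resL_commutes L ζ m (AlgEquiv.restrictScalarsHom ℚ⟮ζ⟯ g) x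
  rw [hg'] at this
  exact this.symm

/-- The embedding `L → M_H`. -/
def algLM : L →+* MH L ζ m H :=
  (algebraMap L (Om L m)).codRestrict (MH L ζ m H).toSubfield.toSubring
    (fun x => algebraMap_mem_MH L ζ m H x)

instance algebra_L_MH : Algebra L (MH L ζ m H) := (algLM L ζ m H).toAlgebra

theorem algebraMap_L_MH_coe (x : L) :
    ((algebraMap L (MH L ζ m H) x : MH L ζ m H) : Om L m) = algebraMap L (Om L m) x := rfl

instance isScalarTower_K_L_MH : IsScalarTower ℚ⟮ζ⟯ L (MH L ζ m H) := by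
  refine IsScalarTower.of_algebraMap_eq (fun x => ?_)
  apply Subtype.ext
  rw [algebraMap_L_MH_coe]
  rfl

instance isScalarTower_L_MH_Om : IsScalarTower L (MH L ζ m H) (Om L m) :=
  IsScalarTower.of_algebraMap_eq (fun _ => rfl)

end fields

end Fermat.Agent.S14.Cross
end
end MergeWrap_S14_Crossing_Setup

section MergeWrap_S14_Crossing_Statements -- from S14/Crossing/Statements.lean

/-!
# S14, crossing with cyclotomic fields: statements of the pieces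

Blueprint: `NOTES/blueprint-S14-miniCFT.md`, section 2, and `NOTES/S14-crossing.md`.
Each `Prop` below is one work package; its owner proves `theorem xxx : Xxx` in his own file
`Fermat/Agent/S14/Crossing/<Name>.lean`.  Notation of `Setup.lean`:
`Ω = Om L m = L(ζ_m)`, `K = ℚ⟮ζ⟯`, `Γ = Gam L ζ m = Gal(Ω/K)`, `resL : Γ → Gal(L/K)`,
`cyc : Γ → (ℤ/m)ˣ`, `EH = Ω^H`, `MH = L · EH`, `Theta ψ hd χ = (ψ ∘ resL) * (χ ∘ cyc)⁻¹`.
-/

set_option autoImplicit false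

open NumberField Polynomial
open scoped nonZeroDivisors IntermediateField

noncomputable section

namespace Fermat.Agent.S14.Cross

/-- `g ∈ Gal(Ω/K)` is a Frobenius element at the prime `P` of `𝓞 Ω` for residue cardinality `q`:
`g x ≡ x ^ q mod P`. -/
def IsFrobOm {L : Type} [Field L] [NumberField L] [IsGalois ℚ L] {ζ : L} {m : ℕ} [NeZero m]
    (g : Gam L ζ m) (P : Ideal (𝓞 (Om L m))) (q : ℕ) : Prop :=
  ∀ x : 𝓞 (Om L m), ∃ y ∈ P, g (x : Om L m) - (x : Om L m) ^ q = (y : Om L m)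

/-- **(G2)** an element of `Gal(Ω/K)` is determined by its restriction to `L` and its cyclotomic
character (`Ω = L(ζ_m)`). -/
def GamExt : Prop :=
  ∀ (L : Type) [Field L] [NumberField L] [IsGalois ℚ L] (ζ : L) (m : ℕ) [NeZero m]
    (g : Gam L ζ m), resL L ζ m g = 1 → cyc L ζ m g = 1 → g = 1

/-- **(G1)** `Gal(Ω/K)` is commutative when `Gal(L/K)` has prime order. -/
def GamComm : Prop :=
  ∀ (p : ℕ) (L : Type) [Field L] [NumberField L] [IsGalois ℚ L] (ζ : L) (m : ℕ) [NeZero m],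
    p.Prime → Nat.card (L ≃ₐ[ℚ⟮ζ⟯] L) = p → ∀ g h : Gam L ζ m, g * h = h * g

/-- **(G3)** surjectivity of `(resL, cyc) : Gal(Ω/K) → Gal(L/K) × (ℤ/m)ˣ` under the hypotheses of
`NoExt` (only the first five are needed: `L/ℚ` is not abelian) when `p ∤ m`. -/
def GamSurj : Prop :=
  ∀ (p : ℕ) (L : Type) [Field L] [NumberField L] [IsGalois ℚ L] (ζ : L) (m : ℕ) [NeZero m],
    p.Prime → 3 ≤ p → IsPrimitiveRoot ζ p →
    Nat.card {τ : L ≃ₐ[ℚ] L // τ ζ = ζ} = p →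
    (∀ (g τ : L ≃ₐ[ℚ] L) (k : ℕ), τ ζ = ζ → g ζ = ζ ^ k → g⁻¹ * τ * g = τ ^ k) →
    m.Coprime p →
    ∀ (σ : L ≃ₐ[ℚ⟮ζ⟯] L) (a : (ZMod m)ˣ), ∃ g : Gam L ζ m, resL L ζ m g = σ ∧ cyc L ζ m g = a

/-- **(U1a)** if `resL` maps `H` onto `Gal(L/K)` then `[M_H : E_H] = [L : K]`. -/
def FinrankEHMH : Prop :=
  ∀ (L : Type) [Field L] [NumberField L] [IsGalois ℚ L] (ζ : L) (m : ℕ) [NeZero m]
    (H : Subgroup (Gam L ζ m)),
    (∀ σ : L ≃ₐ[ℚ⟮ζ⟯] L, ∃ g ∈ H, resL L ζ m g = σ) →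
    Module.finrank (EH L ζ m H) (MH L ζ m H) = Module.finrank ℚ⟮ζ⟯ L

/-- **(U1b)** if `L/K` is unramified everywhere then so is `M_H/E_H`. -/
def UnramEHMH : Prop :=
  ∀ (L : Type) [Field L] [NumberField L] [IsGalois ℚ L] (ζ : L) (m : ℕ) [NeZero m]
    (H : Subgroup (Gam L ζ m)),
    UnramifiedEverywhere ℚ⟮ζ⟯ L → UnramifiedEverywhere (EH L ζ m H) (MH L ζ m H)

/-- **(F1)** existence of Frobenius elements: for a nonzero prime `B` of an intermediate field `F`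
of `Ω/K` there are a prime `P` of `Ω` above `B` and `g ∈ Gal(Ω/F)` with `g x ≡ x ^ N(B) mod P`.
(Mathlib: `IsArithFrobAt.exists_of_isInvariant`.) -/
def ExistsFrob : Prop :=
  ∀ (L : Type) [Field L] [NumberField L] [IsGalois ℚ L] (ζ : L) (m : ℕ) [NeZero m]
    (F : IntermediateField ℚ⟮ζ⟯ (Om L m)) (B : Ideal (𝓞 F)), B.IsPrime → B ≠ ⊥ →
    ∃ (g : Gam L ζ m) (P : Ideal (𝓞 (Om L m))), g ∈ F.fixingSubgroup ∧ P.IsPrime ∧
      P.under (𝓞 F) = B ∧ IsFrobOm g P (Ideal.absNorm B)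

/-- **(F1')** the cyclotomic character of a Frobenius element: if `g x ≡ x ^ q mod P` and `P` does
not contain the divisor `d` of `m`, then `cyc g ≡ q mod d`.
(Mathlib: `AlgHom.IsArithFrobAt.apply_of_pow_eq_one`.) -/
def CycFrob : Prop :=
  ∀ (L : Type) [Field L] [NumberField L] [IsGalois ℚ L] (ζ : L) (m : ℕ) [NeZero m]
    (g : Gam L ζ m) (P : Ideal (𝓞 (Om L m))) (q d : ℕ) (hd : d ∣ m), P.IsPrime →
    IsFrobOm g P q → (d : 𝓞 (Om L m)) ∉ P →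
    ((ZMod.unitsMap hd (cyc L ζ m g) : (ZMod d)ˣ) : ZMod d) = (q : ZMod d)

/-- **(F1'')** the restriction to `L` of a Frobenius element relative to `K` at a prime `P` of `Ω`
is the Frobenius of `L/K` at `P ∩ L`: if `L/K` is unramified, `τ x ≡ x ^ q mod P ∩ L` and
`g x ≡ x ^ q mod P` then `resL g = τ`. -/
def ResFrob : Prop :=
  ∀ (L : Type) [Field L] [NumberField L] [IsGalois ℚ L] (ζ : L) (m : ℕ) [NeZero m]
    (g : Gam L ζ m) (P : Ideal (𝓞 (Om L m))) (q : ℕ) (τ : L ≃ₐ[ℚ⟮ζ⟯] L),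
    UnramifiedEverywhere ℚ⟮ζ⟯ L → P.IsPrime → P ≠ ⊥ → IsFrobOm g P q →
    (∀ x : 𝓞 L, ∃ y ∈ P.under (𝓞 L), τ (x : L) - (x : L) ^ q = (y : L)) →
    resL L ζ m g = τ

/-- **(F2)** a prime of `E_H` whose Frobenius is trivial on `L` is the norm of a prime of `M_H`:
its class is a norm class. -/
def SplitIsNorm : Prop :=
  ∀ (L : Type) [Field L] [NumberField L] [IsGalois ℚ L] (ζ : L) (m : ℕ) [NeZero m]
    (H : Subgroup (Gam L ζ m)) (B : (Ideal (𝓞 (EH L ζ m H)))⁰) (g : Gam L ζ m)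
    (P : Ideal (𝓞 (Om L m))),
    UnramifiedEverywhere ℚ⟮ζ⟯ L → (B : Ideal (𝓞 (EH L ζ m H))).IsPrime → g ∈ H → P.IsPrime →
    P.under (𝓞 (EH L ζ m H)) = B → IsFrobOm g P (Ideal.absNorm (B : Ideal (𝓞 (EH L ζ m H)))) →
    resL L ζ m g = 1 → ClassGroup.mk0 B ∈ normClasses (EH L ζ m H) (MH L ζ m H)

/-- **(hb)** if `H ≤ ker Θ` then `χ` kills the norms of the ideals of `M_H` prime to `d`. -/
def ChiNormMH : Prop :=
  ∀ (L : Type) [Field L] [NumberField L] [IsGalois ℚ L] (ζ : L) (m : ℕ) [NeZero m]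
    (H : Subgroup (Gam L ζ m)) (ψ : (L ≃ₐ[ℚ⟮ζ⟯] L) →* ℂˣ) (d : ℕ) (hd : d ∣ m)
    (χ : DirichletCharacter ℂ d), H ≤ (Theta L ζ m ψ hd χ).ker →
    ∀ I : Ideal (𝓞 (MH L ζ m H)), (Ideal.absNorm I).Coprime d →
      χ ((Ideal.absNorm I : ℕ) : ZMod d) = 1

/-- **(hc)** the prime `q = Q ∩ K` (of degree one over `ℓ`, Frobenius `τ` in `L/K`) has a prime of
degree one above it in `E_H` as soon as `H` contains the elements `g` with `resL g = τ`,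
`cyc g = ℓ`. -/
def SplitPrimeEH : Prop :=
  ∀ (p : ℕ) (L : Type) [Field L] [NumberField L] [IsGalois ℚ L] (ζ : L) (m : ℕ) [NeZero m]
    (H : Subgroup (Gam L ζ m)) (ℓ : ℕ) (Q : Ideal (𝓞 L)) (τ : L ≃ₐ[ℚ⟮ζ⟯] L),
    p.Prime → IsPrimitiveRoot ζ p → UnramifiedEverywhere ℚ⟮ζ⟯ L →
    ℓ.Prime → ℓ % p = 1 → ℓ.Coprime m → Q.IsPrime → (ℓ : 𝓞 L) ∈ Q →
    (∀ x : 𝓞 L, ∃ y ∈ Q, τ (x : L) - (x : L) ^ ℓ = (y : L)) →
    (∀ g : Gam L ζ m, resL L ζ m g = τ → ((cyc L ζ m g : (ZMod m)ˣ) : ZMod m) = (ℓ : ZMod m) →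
      g ∈ H) →
    ∃ B : Ideal (𝓞 (EH L ζ m H)), B.IsPrime ∧ Ideal.absNorm B = ℓ ∧
      Ideal.relNorm (𝓞 ℚ⟮ζ⟯) B = Q.under (𝓞 ℚ⟮ζ⟯)

/-- **(ha) norm residue lemma.**  `r` is a prime with `r ∥ m`, `r ≡ 1 mod p`, `χ` a Dirichlet
character mod `r` of `p`-power order whose image contains the image of `ψ`, and
`E = Ω^(ker Θ)` for `Θ = (ψ ∘ resL) * (χ ∘ cyc)⁻¹`.  Then `χ` kills the absolute norm of every
element of `𝓞 E` prime to `r`.  (`E/K` is totally ramified at the primes above `r`.) -/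
def NormResidue : Prop :=
  ∀ (p : ℕ) (L : Type) [Field L] [NumberField L] [IsGalois ℚ L] (ζ : L) (m : ℕ) [NeZero m]
    (r : ℕ) (hrm : r ∣ m) (ψ : (L ≃ₐ[ℚ⟮ζ⟯] L) →* ℂˣ) (χ : DirichletCharacter ℂ r),
    p.Prime → p ≠ 2 → IsPrimitiveRoot ζ p → Nat.card (L ≃ₐ[ℚ⟮ζ⟯] L) = p →
    UnramifiedEverywhere ℚ⟮ζ⟯ L →
    r.Prime → r % p = 1 → (m / r).Coprime r →
    (∀ (σ : L ≃ₐ[ℚ⟮ζ⟯] L) (a : (ZMod m)ˣ), ∃ g : Gam L ζ m, resL L ζ m g = σ ∧ cyc L ζ m g = a) →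
    (∃ k : ℕ, χ ^ (p ^ k) = 1) →
    (∀ σ : L ≃ₐ[ℚ⟮ζ⟯] L, ∃ a : (ZMod r)ˣ, χ (a : ZMod r) = ((ψ σ : ℂˣ) : ℂ)) →
    ∀ β : 𝓞 (EH L ζ m (Theta L ζ m ψ hrm χ).ker),
      (Ideal.absNorm (Ideal.span {β})).Coprime r →
      χ ((Ideal.absNorm (Ideal.span {β}) : ℕ) : ZMod r) = 1

/-- **(ha1) inertia at `r`**: the elements of `Gal(Ω/K)` which are trivial on `L` and on the
`m/r`-th roots of unity act trivially on `𝓞 Ω / ℜ`, for every prime `ℜ` of `Ω` above `r`.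
(`|I_ℜ| = e ≥ r - 1` and `I_ℜ` is contained in this group, which has at most `r - 1` elements.) -/
def InertiaAtR : Prop :=
  ∀ (p : ℕ) (L : Type) [Field L] [NumberField L] [IsGalois ℚ L] (ζ : L) (m : ℕ) [NeZero m]
    (r : ℕ) (hrm : r ∣ m), p.Prime → IsPrimitiveRoot ζ p → UnramifiedEverywhere ℚ⟮ζ⟯ L →
    r.Prime → r ≠ p → (m / r).Coprime r →
    ∀ (g : Gam L ζ m) (ℜ : Ideal (𝓞 (Om L m))), resL L ζ m g = 1 →
      ZMod.unitsMap (Nat.div_dvd_of_dvd hrm) (cyc L ζ m g) = 1 →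
      ℜ.IsPrime → (r : 𝓞 (Om L m)) ∈ ℜ →
      ∀ x : 𝓞 (Om L m), ∃ y ∈ ℜ, g (x : Om L m) - (x : Om L m) = (y : Om L m)

/-- **(ha2)** under the hypotheses of `NormResidue`, every element of `Gal(Ω/K)` acts trivially
on the integers of `E = Ω^(ker Θ)` modulo every prime `ℜ` of `Ω` above `r`
(`Gal(Ω/K) = I' · ker Θ`). -/
def GamTrivModR : Prop :=
  ∀ (p : ℕ) (L : Type) [Field L] [NumberField L] [IsGalois ℚ L] (ζ : L) (m : ℕ) [NeZero m]
    (r : ℕ) (hrm : r ∣ m) (ψ : (L ≃ₐ[ℚ⟮ζ⟯] L) →* ℂˣ) (χ : DirichletCharacter ℂ r),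
    p.Prime → p ≠ 2 → IsPrimitiveRoot ζ p → Nat.card (L ≃ₐ[ℚ⟮ζ⟯] L) = p →
    UnramifiedEverywhere ℚ⟮ζ⟯ L →
    r.Prime → r % p = 1 → (m / r).Coprime r →
    (∀ (σ : L ≃ₐ[ℚ⟮ζ⟯] L) (a : (ZMod m)ˣ), ∃ g : Gam L ζ m, resL L ζ m g = σ ∧ cyc L ζ m g = a) →
    (∃ k : ℕ, χ ^ (p ^ k) = 1) →
    (∀ σ : L ≃ₐ[ℚ⟮ζ⟯] L, ∃ a : (ZMod r)ˣ, χ (a : ZMod r) = ((ψ σ : ℂˣ) : ℂ)) →
    ∀ (γ : Gam L ζ m) (ℜ : Ideal (𝓞 (Om L m))), ℜ.IsPrime → (r : 𝓞 (Om L m)) ∈ ℜ →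
      ∀ x : 𝓞 (Om L m), (x : Om L m) ∈ EH L ζ m (Theta L ζ m ψ hrm χ).ker →
        ∃ y ∈ ℜ, γ (x : Om L m) - (x : Om L m) = (y : Om L m)

/-- (ha2) from (ha1). -/
def GamTrivModRImp : Prop := InertiaAtR → GamTrivModR

/-- (ha) from (ha2): the norm computation. -/
def NormResidueImp : Prop := GamTrivModR → NormResidue

end Fermat.Agent.S14.Cross
end
end MergeWrap_S14_Crossing_Statements
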