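import Fermat.Agent.MU.S14.Crossing.Statements

section MergeWrap_S14_Crossing_CycFrob -- from S14/Crossing/CycFrob.lean

/-!
# S14 crossing, piece C7: `CycFrob` (helper13)
-/

set_option autoImplicit false

open NumberField Polynomial
open scoped nonZeroDivisors IntermediateField

namespace Fermat.Agent.S14.Cross

section c7

/-- For a primitive `d`-th root of unity `η` of a domain and a prime ideal `Q` not containing
`d`, the element `1 - η ^ j` is not in `Q` unless `d ∣ j`. -/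
theorem c7_dvd_of_one_sub_pow_mem {S : Type*} [CommRing S] [IsDomain S] {Q : Ideal S}
    {η : S} {d : ℕ} (hd0 : d ≠ 0) (hη : IsPrimitiveRoot η d)
    (hdQ : (d : S) ∉ Q) {j : ℕ} (hj : 1 - η ^ j ∈ Q) : d ∣ j := by
  by_contra hdj
  obtain ⟨n, rfl⟩ : ∃ n, d = n + 1 := ⟨d - 1, by omega⟩
  apply hdQ
  have hprod := hη.prod_one_sub_pow_eq_order
  have hmod : η ^ j = η ^ (j % (n + 1)) := by
    conv_lhs => rw [← Nat.mod_add_div j (n + 1), pow_add, pow_mul, hη.pow_eq_one, one_pow,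
      mul_one]
  have hpos : 0 < j % (n + 1) := Nat.pos_of_ne_zero (fun h => hdj (Nat.dvd_of_mod_eq_zero h))
  have hlt : j % (n + 1) < n + 1 := Nat.mod_lt _ (Nat.succ_pos _)
  have hmem : j % (n + 1) - 1 ∈ Finset.range n := by
    rw [Finset.mem_range]; omega
  have hdvd : (1 - η ^ (j % (n + 1) - 1 + 1)) ∣ ∏ k ∈ Finset.range n, (1 - η ^ (k + 1)) :=
    Finset.dvd_prod_of_mem _ hmem
  rw [Nat.sub_add_cancel hpos, ← hmod, hprod] at hdvd
  have := Q.mem_of_dvd hdvd hj
  simpa using this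

/-- Powers of a primitive `d`-th root of unity which are congruent modulo a prime not
containing `d` have congruent exponents. -/
theorem c7_modEq_of_pow_sub_pow_mem {S : Type*} [CommRing S] [IsDomain S] {Q : Ideal S}
    (hQ : Q.IsPrime) {η : S} {d : ℕ} (hd0 : d ≠ 0) (hη : IsPrimitiveRoot η d)
    (hdQ : (d : S) ∉ Q) {a b : ℕ} (hab : η ^ a - η ^ b ∈ Q) : a ≡ b [MOD d] := by
  have hunit : IsUnit η := hη.isUnit hd0
  wlog hle : a ≤ b generalizing a b
  · have h' : η ^ b - η ^ a ∈ Q := by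
      have := Q.neg_mem hab
      rwa [neg_sub] at this
    exact (this h' (by omega)).symm
  have h1 : η ^ a * (1 - η ^ (b - a)) ∈ Q := by
    rw [mul_sub, mul_one, ← pow_add, Nat.add_sub_cancel' hle]
    exact hab
  have h2 : 1 - η ^ (b - a) ∈ Q := by
    rcases hQ.mem_or_mem h1 with h | h
    · exact absurd (Q.eq_top_of_isUnit_mem h (hunit.pow a)) hQ.ne_top
    · exact h
  have h3 := c7_dvd_of_one_sub_pow_mem hd0 hη hdQ h2
  exact (Nat.modEq_of_dvd (by
    have : ((b - a : ℕ) : ℤ) = (b : ℤ) - a := by omega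
    rw [← this]
    exact_mod_cast h3))

end c7

/-- **(C7)** `CycFrob`. -/
theorem cycFrob : CycFrob := by
  intro L _ _ _ ζ m _ g P q d hd hP hg hdP
  have hm0 : m ≠ 0 := NeZero.ne m
  have hd0 : d ≠ 0 := fun h => hm0 (by rw [h] at hd; exact Nat.eq_zero_of_zero_dvd hd)
  have hζ := zetaOm_spec L m
  have hζi : IsPrimitiveRoot hζ.toInteger m := hζ.toInteger_isPrimitiveRoot
  have hη : IsPrimitiveRoot (hζ.toInteger ^ (m / d)) d :=
    hζi.pow (Nat.pos_of_ne_zero hm0) (Nat.div_mul_cancel hd).symm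
  obtain ⟨y, hy, hxy⟩ := hg (hζ.toInteger ^ (m / d))
  have h1 : g (zetaOm L m ^ (m / d)) = (zetaOm L m ^ (m / d)) ^ ((cyc L ζ m g : ZMod m).val) := by
    rw [map_pow, cyc_spec, ← pow_mul, ← pow_mul, mul_comm]
  have hxy' : (zetaOm L m ^ (m / d)) ^ ((cyc L ζ m g : ZMod m).val) -
      (zetaOm L m ^ (m / d)) ^ q = (y : Om L m) := by
    rw [← h1]
    exact hxy
  have hmem : (hζ.toInteger ^ (m / d)) ^ ((cyc L ζ m g : ZMod m).val) -
      (hζ.toInteger ^ (m / d)) ^ q ∈ P := by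
    have : (hζ.toInteger ^ (m / d)) ^ ((cyc L ζ m g : ZMod m).val) -
        (hζ.toInteger ^ (m / d)) ^ q = y := by
      apply RingOfIntegers.ext
      rw [← hxy']
      rfl
    rw [this]
    exact hy
  have hmod := c7_modEq_of_pow_sub_pow_mem hP hd0 hη hdP hmem
  rw [ZMod.unitsMap_def, Units.coe_map, MonoidHom.coe_coe, ZMod.castHom_apply,
    ← ZMod.natCast_val, ZMod.natCast_eq_natCast_iff]
  exact hmod

end Fermat.Agent.S14.Cross
end MergeWrap_S14_Crossing_CycFrob
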