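import Fermat.Agent.MU.S14.Crossing.Statements

section MergeWrap_S14_Crossing_ExistsFrob -- from S14/Crossing/ExistsFrob.lean

/-!
# S14 crossing, piece C6: `ExistsFrob` (helper13)
-/

set_option autoImplicit false

open NumberField Polynomial
open scoped nonZeroDivisors IntermediateField

namespace Fermat.Agent.S14.Cross

/-- **(C6)** `ExistsFrob`. -/
theorem existsFrob : ExistsFrob := by
  intro L _ _ _ ζ m _ F B hB hB0
  have hBmax : B.IsMaximal := hB.isMaximal hB0
  obtain ⟨P, hPmax, hPover⟩ :=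
    Ideal.exists_maximal_ideal_liesOver_of_isIntegral (S := 𝓞 (Om L m)) B
  have hP : P.IsPrime := hPmax.isPrime
  have hPB : P.under (𝓞 F) = B := hPover.over.symm
  have hP0 : P ≠ ⊥ := Ideal.ne_bot_of_liesOver_of_ne_bot hB0 P
  have : Finite (𝓞 (Om L m) ⧸ P) := Ideal.finiteQuotientOfFreeOfNeBot P hP0
  obtain ⟨σ, hσ⟩ := IsArithFrobAt.exists_of_isInvariant (𝓞 F) (Om L m ≃ₐ[F] Om L m) P
  refine ⟨σ.restrictScalars ℚ⟮ζ⟯, P, ?_, hP, hPB, ?_⟩
  · intro x
    exact σ.commutes x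
  · intro x
    have h := hσ x
    rw [hPB] at h
    have hcard : Nat.card (𝓞 F ⧸ B) = Ideal.absNorm B := by
      rw [Ideal.absNorm_apply, Submodule.cardQuot_apply]
    rw [hcard] at h
    exact ⟨_, h, rfl⟩

end Fermat.Agent.S14.Cross
end MergeWrap_S14_Crossing_ExistsFrob
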