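import Fermat.Agent.MU.S14.Crossing.Statements
import Fermat.Agent.S14.FinalA

section MergeWrap_S14_Crossing_GamSurj -- from S14/Crossing/GamSurj.lean

/-!
# S14 crossing, piece C3 (G3): `(resL, cyc) : Gal(Ω/K) → Gal(L/K) × (ℤ/m)ˣ` is onto

`Ω = L(ζ_m)`, `K = ℚ(ζ)`, `ζ` a primitive `p`-th root of unity, `p ∤ m`, `[L : K] = p` and
`Gal(L/ℚ)` acts on `Gal(L/K)` through the cyclotomic character (so `L/ℚ` is not abelian).
-/

set_option autoImplicit false
set_option linter.unusedSectionVars false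

open NumberField Polynomial
open scoped nonZeroDivisors IntermediateField

noncomputable section

namespace Fermat.Agent.S14.Cross

variable (L : Type) [Field L] [NumberField L] [IsGalois ℚ L] (ζ : L)
variable (m : ℕ) [NeZero m]

/-- powers with congruent exponents of an element of finite order. -/
theorem c3_pow_eq_of_modEq {M : Type*} [Monoid M] {x : M} {n a b : ℕ} (hx : orderOf x = n)
    (hab : a ≡ b [MOD n]) : x ^ a = x ^ b := by
  have hab' : a % n = b % n := hab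
  rw [← pow_mod_orderOf x a, ← pow_mod_orderOf x b, hx, hab']

variable {L ζ m}

/-- the product of `ζ` (in `Ω`) and `ζ_m` is a primitive `pm`-th root of unity. -/
theorem c3_isPrimitiveRoot_mul {p : ℕ} (hζ : IsPrimitiveRoot ζ p) (hmp : m.Coprime p) :
    IsPrimitiveRoot (algebraMap L (Om L m) ζ * zetaOm L m) (p * m) := by
  have h1 : IsPrimitiveRoot (algebraMap L (Om L m) ζ) p :=
    hζ.map_of_injective (algebraMap L (Om L m)).injective
  have h2 := zetaOm_spec L m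
  have e1 : orderOf (algebraMap L (Om L m) ζ) = p := h1.eq_orderOf.symm
  have e2 : orderOf (zetaOm L m) = m := h2.eq_orderOf.symm
  have h3 := (Commute.all (algebraMap L (Om L m) ζ) (zetaOm L m)).orderOf_mul_eq_mul_orderOf_of_coprime
    (by rw [e1, e2]; exact hmp.symm)
  rw [e1, e2] at h3
  rw [← h3]
  exact IsPrimitiveRoot.orderOf _

/-- **Step 1**: for `c` prime to `pm` there is an automorphism of `Ω/ℚ` raising `ζ` and `ζ_m`
to the power `c`. -/
theorem c3_exists_aut {p : ℕ} (hp : p.Prime) (hζ : IsPrimitiveRoot ζ p) (hmp : m.Coprime p)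
    (c : ℕ) (hc : c.Coprime (p * m)) :
    ∃ h : Om L m ≃ₐ[ℚ] Om L m, h (algebraMap L (Om L m) ζ) = algebraMap L (Om L m) ζ ^ c ∧
      h (zetaOm L m) = zetaOm L m ^ c := by
  set z' := algebraMap L (Om L m) ζ with hz'
  set zm := zetaOm L m with hzm
  have hz : IsPrimitiveRoot (z' * zm) (p * m) := c3_isPrimitiveRoot_mul hζ hmp
  have hpm : 0 < p * m := Nat.mul_pos hp.pos (NeZero.pos m)
  have hzc : IsPrimitiveRoot ((z' * zm) ^ c) (p * m) := hz.pow_of_coprime c hc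
  have hmin : minpoly ℚ (z' * zm) = minpoly ℚ ((z' * zm) ^ c) := by
    rw [← cyclotomic_eq_minpoly_rat hz hpm, ← cyclotomic_eq_minpoly_rat hzc hpm]
  have halg : IsAlgebraic ℚ (z' * zm) := Algebra.IsAlgebraic.isAlgebraic _
  have hev : Polynomial.aeval ((z' * zm) ^ c) (minpoly ℚ (z' * zm)) = 0 := by
    rw [hmin]
    exact minpoly.aeval _ _
  obtain ⟨h, hh⟩ := minpoly.exists_algEquiv_of_root' halg hev
  have e1 : orderOf z' = p :=
    (hζ.map_of_injective (algebraMap L (Om L m)).injective).eq_orderOf.symm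
  have e2 : orderOf zm = m := (zetaOm_spec L m).eq_orderOf.symm
  -- `z'` and `zm` are powers of `z' * zm`
  obtain ⟨u, hu1, hu2⟩ := Nat.chineseRemainder hmp.symm 1 0
  obtain ⟨v, hv1, hv2⟩ := Nat.chineseRemainder hmp.symm 0 1
  have hzu : (z' * zm) ^ u = z' := by
    rw [mul_pow, c3_pow_eq_of_modEq e1 hu1, c3_pow_eq_of_modEq e2 hu2, pow_one, pow_zero, mul_one]
  have hzv : (z' * zm) ^ v = zm := by
    rw [mul_pow, c3_pow_eq_of_modEq e1 hv1, c3_pow_eq_of_modEq e2 hv2, pow_one, pow_zero, one_mul]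
  refine ⟨h, ?_, ?_⟩
  · calc h z' = h ((z' * zm) ^ u) := by rw [hzu]
      _ = (h (z' * zm)) ^ u := map_pow h _ _
      _ = ((z' * zm) ^ c) ^ u := by rw [hh]
      _ = ((z' * zm) ^ u) ^ c := by rw [← pow_mul, ← pow_mul, mul_comm c u]
      _ = z' ^ c := by rw [hzu]
  · calc h zm = h ((z' * zm) ^ v) := by rw [hzv]
      _ = (h (z' * zm)) ^ v := map_pow h _ _
      _ = ((z' * zm) ^ c) ^ v := by rw [hh]
      _ = ((z' * zm) ^ v) ^ c := by rw [← pow_mul, ← pow_mul, mul_comm c v]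
      _ = zm ^ c := by rw [hzv]

/-- **Step 4**: an automorphism of `Ω/ℚ` fixing `ζ` fixes `K = ℚ(ζ)` pointwise. -/
theorem c3_fix_adjoin (h : Om L m ≃ₐ[ℚ] Om L m)
    (hfix : h (algebraMap L (Om L m) ζ) = algebraMap L (Om L m) ζ) (x : ℚ⟮ζ⟯) :
    h (algebraMap ℚ⟮ζ⟯ (Om L m) x) = algebraMap ℚ⟮ζ⟯ (Om L m) x := by
  show h (algebraMap L (Om L m) (x : L)) = algebraMap L (Om L m) (x : L)
  obtain ⟨x, hx⟩ := x
  show h (algebraMap L (Om L m) x) = algebraMap L (Om L m) x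
  induction hx using IntermediateField.adjoin_induction with
  | mem y hy =>
    rw [Set.mem_singleton_iff] at hy
    subst hy
    exact hfix
  | algebraMap y =>
    rw [← IsScalarTower.algebraMap_apply ℚ L (Om L m)]
    exact h.commutes y
  | add y z _ _ hy hz => rw [map_add, map_add, hy, hz]
  | inv y _ hy => rw [map_inv₀, map_inv₀, hy]
  | mul y z _ _ hy hz => rw [map_mul, map_mul, hy, hz]

/-- the element of `Gal(Ω/K)` defined by an automorphism of `Ω/ℚ` fixing `ζ`. -/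
def c3_toGam (h : Om L m ≃ₐ[ℚ] Om L m)
    (hfix : h (algebraMap L (Om L m) ζ) = algebraMap L (Om L m) ζ) : Gam L ζ m :=
  AlgEquiv.ofRingEquiv (f := h.toRingEquiv) (c3_fix_adjoin h hfix)

@[simp]
theorem c3_toGam_apply (h : Om L m ≃ₐ[ℚ] Om L m)
    (hfix : h (algebraMap L (Om L m) ζ) = algebraMap L (Om L m) ζ) (x : Om L m) :
    c3_toGam h hfix x = h x := rfl

/-- **Step 5**: the cyclotomic character is determined by the action on `ζ_m`. -/
theorem c3_cyc_eq (g : Gam L ζ m) (a : (ZMod m)ˣ)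
    (hg : g (zetaOm L m) = zetaOm L m ^ (a : ZMod m).val) : cyc L ζ m g = a := by
  have h1 := cyc_spec L ζ m g
  rw [hg] at h1
  have h2 := (zetaOm_spec L m).pow_inj (ZMod.val_lt _) (ZMod.val_lt _) h1
  exact Units.ext (ZMod.val_injective m h2.symm)

/-- variant: `g ζ_m = ζ_m ^ c` with `c ≡ a mod m`. -/
theorem c3_cyc_eq' (g : Gam L ζ m) (a : (ZMod m)ˣ) (c : ℕ)
    (hc : c ≡ (a : ZMod m).val [MOD m]) (hg : g (zetaOm L m) = zetaOm L m ^ c) :
    cyc L ζ m g = a := by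
  apply c3_cyc_eq
  rw [hg]
  exact c3_pow_eq_of_modEq (zetaOm_spec L m).eq_orderOf.symm hc

/-- **(a)** `cyc : Gal(Ω/K) → (ℤ/m)ˣ` is onto. -/
theorem c3_cyc_surjective {p : ℕ} (hp : p.Prime) (hζ : IsPrimitiveRoot ζ p) (hmp : m.Coprime p)
    (a : (ZMod m)ˣ) : ∃ g : Gam L ζ m, cyc L ζ m g = a := by
  obtain ⟨c, hc1, hc2⟩ := Nat.chineseRemainder hmp.symm 1 (a : ZMod m).val
  have hcp : c.Coprime p := by
    rw [Nat.Coprime, Nat.ModEq.gcd_eq hc1]
    simp
  have hcm : c.Coprime m := by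
    rw [Nat.Coprime, Nat.ModEq.gcd_eq hc2]
    exact ZMod.val_coe_unit_coprime a
  obtain ⟨h, hh1, hh2⟩ := c3_exists_aut hp hζ hmp c (Nat.Coprime.mul_right hcp hcm)
  have e1 : orderOf (algebraMap L (Om L m) ζ) = p :=
    (hζ.map_of_injective (algebraMap L (Om L m)).injective).eq_orderOf.symm
  have hfix : h (algebraMap L (Om L m) ζ) = algebraMap L (Om L m) ζ := by
    rw [hh1, c3_pow_eq_of_modEq e1 hc1, pow_one]
  exact ⟨c3_toGam h hfix, c3_cyc_eq' _ a c hc2 hh2⟩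

/-- `Gal(L/K)` has `p` elements. -/
theorem c3_card_gal {p : ℕ}
    (hcard : Nat.card {τ : L ≃ₐ[ℚ] L // τ ζ = ζ} = p) : Nat.card (L ≃ₐ[ℚ⟮ζ⟯] L) = p := by
  rw [IsGalois.card_aut_eq_finrank ℚ⟮ζ⟯ L, x9a_finrank ζ, hcard]

/-- **(b)** there is an element of `Gal(Ω/K)` acting trivially on `ζ_m` but not on `L`. -/
theorem c3_exists_cyc_one_res_ne_one {p : ℕ} (hp : p.Prime) (hp3 : 3 ≤ p)
    (hζ : IsPrimitiveRoot ζ p) (hcard : Nat.card {τ : L ≃ₐ[ℚ] L // τ ζ = ζ} = p)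
    (hconj : ∀ (g τ : L ≃ₐ[ℚ] L) (k : ℕ), τ ζ = ζ → g ζ = ζ ^ k → g⁻¹ * τ * g = τ ^ k)
    (hmp : m.Coprime p) :
    ∃ g : Gam L ζ m, cyc L ζ m g = 1 ∧ resL L ζ m g ≠ 1 := by
  by_contra hcon0
  have hcon : ∀ g : Gam L ζ m, cyc L ζ m g = 1 → resL L ζ m g = 1 :=
    fun g hg => by_contra fun hne => hcon0 ⟨g, hg, hne⟩
  set ι := algebraMap L (Om L m) with hι
  have hιinj : Function.Injective ι := (algebraMap L (Om L m)).injective
  -- a nontrivial element of `Gal(L/K)` and a lift to `Ω`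
  have hcardK := c3_card_gal (ζ := ζ) hcard
  have hfin : Finite (L ≃ₐ[ℚ⟮ζ⟯] L) := Nat.finite_of_card_ne_zero (by rw [hcardK]; exact hp.ne_zero)
  have hnt : Nontrivial (L ≃ₐ[ℚ⟮ζ⟯] L) :=
    Finite.one_lt_card_iff_nontrivial.mp (by rw [hcardK]; omega)
  obtain ⟨τ, hτ⟩ := exists_ne (1 : L ≃ₐ[ℚ⟮ζ⟯] L)
  obtain ⟨τt, hτt⟩ := AlgEquiv.restrictNormalHom_surjective (F := ℚ⟮ζ⟯) (K₁ := L) (Om L m) τ
  have hτt' : ∀ x : L, τt (ι x) = ι (τ x) := by
    intro x
    rw [← hτt]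
    exact (AlgEquiv.restrictNormal_commutes τt L x).symm
  have hτtz : τt (ι ζ) = ι ζ := τt.commutes ⟨ζ, IntermediateField.mem_adjoin_simple_self ℚ ζ⟩
  -- an automorphism `h` of `Ω/ℚ` with `h ζ = ζ ^ 2`, `h ζ_m = ζ_m`
  obtain ⟨c, hc1, hc2⟩ := Nat.chineseRemainder hmp.symm 2 1
  have h2p : Nat.Coprime 2 p := by
    rw [Nat.coprime_comm]
    exact (Nat.Prime.coprime_iff_not_dvd hp).mpr (fun h2 => by
      have := (Nat.prime_dvd_prime_iff_eq hp Nat.prime_two).mp h2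
      omega)
  have hcp : c.Coprime p := by
    rw [Nat.Coprime, Nat.ModEq.gcd_eq hc1]
    exact h2p
  have hcm : c.Coprime m := by
    rw [Nat.Coprime, Nat.ModEq.gcd_eq hc2]
    simp
  obtain ⟨h, hh1, hh2⟩ := c3_exists_aut hp hζ hmp c (Nat.Coprime.mul_right hcp hcm)
  have e1 : orderOf (ι ζ) = p := (hζ.map_of_injective hιinj).eq_orderOf.symm
  have e2 : orderOf (zetaOm L m) = m := (zetaOm_spec L m).eq_orderOf.symm
  have hh1' : h (ι ζ) = ι ζ ^ 2 := by rw [hh1, c3_pow_eq_of_modEq e1 hc1]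
  have hh2' : h (zetaOm L m) = zetaOm L m := by
    rw [hh2, c3_pow_eq_of_modEq e2 hc2, pow_one]
  -- the commutator
  set τq : Om L m ≃ₐ[ℚ] Om L m := τt.restrictScalars ℚ with hτq
  have hτq_apply : ∀ x, τq x = τt x := fun _ => rfl
  have hτq_symm : ∀ x, τq.symm x = τt.symm x := fun _ => rfl
  set γ₀ : Om L m ≃ₐ[ℚ] Om L m := h⁻¹ * τq * h * τq⁻¹ with hγ₀
  have hγ₀_apply : ∀ x, γ₀ x = h.symm (τt (h (τt.symm x))) := fun _ => rfl
  have hγz : γ₀ (ι ζ) = ι ζ := by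
    rw [hγ₀_apply]
    have : τt.symm (ι ζ) = ι ζ := by
      conv_lhs => rw [← hτtz]
      exact τt.symm_apply_apply _
    rw [this, hh1', map_pow, hτtz, ← hh1']
    exact h.symm_apply_apply _
  have hγm : γ₀ (zetaOm L m) = zetaOm L m := by
    rw [hγ₀_apply]
    have hb := cyc_spec L ζ m τt⁻¹
    have hb' : τt.symm (zetaOm L m) = zetaOm L m ^ ((cyc L ζ m τt⁻¹ : ZMod m).val) := hb
    have h3 : h (τt.symm (zetaOm L m)) = τt.symm (zetaOm L m) := by
      rw [hb', map_pow, hh2']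
    rw [h3, τt.apply_symm_apply]
    conv_lhs => rw [← hh2']
    exact h.symm_apply_apply _
  -- it lies in `Gal(Ω/K)`, has trivial cyclotomic character, hence is trivial on `L`
  have hcycγ : cyc L ζ m (c3_toGam γ₀ hγz) = 1 := by
    apply c3_cyc_eq' _ 1 1
    · rw [Units.val_one]
      rw [ZMod.val_one_eq_one_mod]
      exact (Nat.mod_modEq 1 m).symm
    · rw [c3_toGam_apply, hγm, pow_one]
  have hresγ := hcon _ hcycγ
  have hγL : ∀ x : L, γ₀ (ι x) = ι x := by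
    intro x
    have := resL_commutes L ζ m (c3_toGam γ₀ hγz) x
    rw [hresγ] at this
    exact this.symm
  -- restriction of `h` to `L`
  set hL : L ≃ₐ[ℚ] L := AlgEquiv.restrictNormalHom L h with hhL
  have hhL' : ∀ x : L, ι (hL x) = h (ι x) := fun x => AlgEquiv.restrictNormal_commutes h L x
  have hhLζ : hL ζ = ζ ^ 2 := by
    apply hιinj
    rw [hhL', hh1', map_pow]
  set τQ : L ≃ₐ[ℚ] L := τ.restrictScalars ℚ with hτQ
  have hτQζ : τQ ζ = ζ := τ.commutes ⟨ζ, IntermediateField.mem_adjoin_simple_self ℚ ζ⟩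
  have hcomm : τQ * hL = hL * τQ := by
    ext x
    apply hιinj
    show ι (τ (hL x)) = ι (hL (τ x))
    rw [← hτt', hhL', hhL', ← hτt']
    -- `τt (h (ι x)) = h (τt (ι x))` from `γ₀ (τt (ι x)) = τt (ι x)`
    have h4 := hγL (τ x)
    rw [hγ₀_apply, ← hτt', τt.symm_apply_apply] at h4
    rw [← h4]
    exact (h.apply_symm_apply _).symm
  have h5 := hconj hL τQ 2 hτQζ hhLζ
  rw [mul_assoc, hcomm, ← mul_assoc, inv_mul_cancel, one_mul] at h5
  have h6 : τQ = 1 := by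
    have : τQ * 1 = τQ * τQ := by rw [mul_one, ← sq]; exact h5
    exact (mul_left_cancel this).symm
  apply hτ
  ext x
  exact DFunLike.congr_fun h6 x

/-- **(C3)** `(resL, cyc) : Gal(Ω/K) → Gal(L/K) × (ℤ/m)ˣ` is onto. -/
theorem gamSurj : GamSurj := by
  intro p L _ _ _ ζ m _ hp hp3 hζ hcard hconj hmp σ a
  obtain ⟨g₀, hg₀c, hg₀r⟩ := c3_exists_cyc_one_res_ne_one hp hp3 hζ hcard hconj hmp
  obtain ⟨ga, hga⟩ := c3_cyc_surjective (L := L) (ζ := ζ) hp hζ hmp a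
  have : Fact p.Prime := ⟨hp⟩
  have hmem : σ * (resL L ζ m ga)⁻¹ ∈ Subgroup.zpowers (resL L ζ m g₀) :=
    mem_zpowers_of_prime_card (c3_card_gal (ζ := ζ) hcard) hg₀r
  obtain ⟨j, hj⟩ := Subgroup.mem_zpowers_iff.mp hmem
  refine ⟨g₀ ^ j * ga, ?_, ?_⟩
  · rw [map_mul, map_zpow, hj, inv_mul_cancel_right]
  · rw [map_mul, map_zpow, hg₀c, one_zpow, one_mul, hga]

end Fermat.Agent.S14.Cross
end
end MergeWrap_S14_Crossing_GamSurj
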