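import Fermat.Agent.MU.S14.Crossing.Statements

section MergeWrap_S14_Crossing_GamExt -- from S14/Crossing/GamExt.lean

set_option autoImplicit false

open NumberField Polynomial
open scoped nonZeroDivisors IntermediateField

noncomputable section

namespace Fermat.Agent.S14.Cross

/-- an element of `Gal(Ω/K)` fixing `L` pointwise and `ζ_m` is trivial. -/
theorem c1_eq_one_of_fix {L : Type} [Field L] [NumberField L] [IsGalois ℚ L] {ζ : L} {m : ℕ}
    [NeZero m] (g : Gam L ζ m) (hL : ∀ x : L, g (algebraMap L (Om L m) x) = algebraMap L (Om L m) x)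
    (hz : g (zetaOm L m) = zetaOm L m) : g = 1 := by
  -- the `L`-algebra endomorphism induced by `g`
  let g' : Om L m →ₐ[L] Om L m :=
    { (g : Om L m →+* Om L m) with
      commutes' := hL }
  have hadj : Algebra.adjoin L {zetaOm L m} = ⊤ :=
    IsCyclotomicExtension.adjoin_primitive_root_eq_top (zetaOm_spec L m)
  have h1 : g' = AlgHom.id L (Om L m) := by
    apply AlgHom.ext_of_adjoin_eq_top hadj
    intro x hx
    rw [Set.mem_singleton_iff] at hx
    subst hx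
    exact hz
  ext x
  have := DFunLike.congr_fun h1 x
  exact this

theorem gamExt : GamExt := by
  intro L _ _ _ ζ m _ g hres hcyc
  apply c1_eq_one_of_fix g
  · intro x
    have := resL_commutes L ζ m g x
    rw [hres] at this
    exact this.symm
  · have := cyc_spec L ζ m g
    rw [hcyc] at this
    rw [this]
    have h1 : ((1 : (ZMod m)ˣ) : ZMod m).val = 1 % m := by
      rw [Units.val_one]
      exact ZMod.val_one_eq_one_mod m
    rw [h1]
    rcases Nat.lt_or_ge 1 m with h | h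
    · rw [Nat.mod_eq_of_lt h, pow_one]
    · have hm : m = 1 := by
        have := NeZero.pos m
        omega
      have hz : zetaOm L m = 1 := by
        have h2 := (zetaOm_spec L m).pow_eq_one
        have h3 : zetaOm L m ^ m = zetaOm L m ^ 1 := by
          congr 1
        rw [h3, pow_one] at h2
        exact h2
      rw [hz, one_pow]

end Fermat.Agent.S14.Cross
end
end MergeWrap_S14_Crossing_GamExt

section MergeWrap_S14_Crossing_InertiaAtR -- from S14/Crossing/InertiaAtR.lean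

set_option autoImplicit false

open NumberField Polynomial
open scoped nonZeroDivisors IntermediateField Pointwise

noncomputable section

namespace Fermat.Agent.S14.Cross

/-- Roots of unity of order prime to the residue characteristic are distinct modulo a prime. -/
theorem c12_dvd_of_pow_sub_one_mem {R : Type*} [CommRing R] [IsDomain R] (P : Ideal R)
    {η : R} {n : ℕ} (hη : IsPrimitiveRoot η n) (hn : (n : R) ∉ P) (k : ℕ)
    (h : η ^ k - 1 ∈ P) : n ∣ k := by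
  by_contra hnk
  set x : R := η ^ k with hx
  have hx1 : x ≠ 1 := by
    intro h1
    exact hnk ((hη.pow_eq_one_iff_dvd k).mp h1)
  have hxn : x ^ n = 1 := by
    rw [hx, ← pow_mul, mul_comm, pow_mul, hη.pow_eq_one, one_pow]
  have hsum : ∑ j ∈ Finset.range n, x ^ j = 0 := by
    have h2 := geom_sum_mul x n
    rw [hxn, sub_self, mul_eq_zero] at h2
    rcases h2 with h2 | h2
    · exact h2
    · exact absurd (sub_eq_zero.mp h2) hx1
  have hj : ∀ j : ℕ, x ^ j - 1 ∈ P := by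
    intro j
    obtain ⟨c, hc⟩ := sub_dvd_pow_sub_pow x 1 j
    rw [one_pow] at hc
    rw [hc]
    exact Ideal.mul_mem_right _ _ h
  have h3 : ∑ j ∈ Finset.range n, (x ^ j - 1) ∈ P := Ideal.sum_mem _ (fun j _ => hj j)
  rw [Finset.sum_sub_distrib, hsum, Finset.sum_const, Finset.card_range, zero_sub,
    nsmul_eq_mul, mul_one] at h3
  exact hn ((Ideal.neg_mem_iff P).mp h3)

theorem c12_modEq_of_pow_sub_pow_mem {R : Type*} [CommRing R] [IsDomain R] (P : Ideal R)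
    [hP : P.IsPrime] {η : R} {n : ℕ} (hη : IsPrimitiveRoot η n) (hn : (n : R) ∉ P) (a b : ℕ)
    (h : η ^ a - η ^ b ∈ P) : a ≡ b [MOD n] := by
  have hn0 : n ≠ 0 := by
    rintro rfl
    exact hn (by simp)
  have key : ∀ a b : ℕ, b ≤ a → η ^ a - η ^ b ∈ P → a ≡ b [MOD n] := by
    intro a b hba h
    have h1 : η ^ a - η ^ b = η ^ b * (η ^ (a - b) - 1) := by
      rw [mul_sub, ← pow_add, mul_one, Nat.add_sub_cancel' hba]
    rw [h1] at h
    have h2 : η ^ (a - b) - 1 ∈ P := by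
      rcases hP.mem_or_mem h with h3 | h3
      · exfalso
        have hu : IsUnit (η ^ b) := (hη.isUnit hn0).pow b
        exact hP.ne_top (Ideal.eq_top_of_isUnit_mem _ h3 hu)
      · exact h3
    have h4 := c12_dvd_of_pow_sub_one_mem P hη hn _ h2
    exact ((Nat.modEq_iff_dvd' hba).mpr h4).symm
  rcases le_total b a with hba | hab
  · exact key a b hba h
  · have h' : η ^ b - η ^ a ∈ P := by
      have := (Ideal.neg_mem_iff P).mpr h
      rwa [neg_sub] at this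
    exact (key b a hab h').symm

/-- In a domain containing a primitive `r`-th root of unity, a prime ideal containing the prime
`r` satisfies `r ∈ P ^ (r - 1)`. -/
theorem c12_prime_mem_pow {R : Type*} [CommRing R] [IsDomain R] (P : Ideal R) [hP : P.IsPrime]
    {η : R} {r : ℕ} (hr : r.Prime) (hη : IsPrimitiveRoot η r) (hrP : (r : R) ∈ P) :
    (r : R) ∈ P ^ (r - 1) := by
  obtain ⟨n, rfl⟩ : ∃ n, r = n + 1 := ⟨r - 1, (Nat.succ_pred_eq_of_pos hr.pos).symm⟩
  have hprod := hη.prod_one_sub_pow_eq_order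
  have hprod' : ∏ k ∈ Finset.range n, (1 - η ^ (k + 1)) = ((n + 1 : ℕ) : R) := by
    rw [hprod]; push_cast; rfl
  -- some factor is in `P`
  have h1 : ∏ k ∈ Finset.range n, (1 - η ^ (k + 1)) ∈ P := by rw [hprod']; exact hrP
  obtain ⟨k₀, hk₀, hk₀P⟩ := (hP.prod_mem_iff).mp h1
  rw [Finset.mem_range] at hk₀
  -- `μ = η ^ (k₀ + 1)` is again primitive
  have hcop : (k₀ + 1).Coprime (n + 1) := by
    rw [Nat.coprime_comm]
    exact Nat.coprime_of_lt_prime (by omega) (by omega) hr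
  have hμ : IsPrimitiveRoot (η ^ (k₀ + 1)) (n + 1) := hη.pow_of_coprime _ hcop
  set μ : R := η ^ (k₀ + 1) with hμdef
  -- every factor is in `P`
  have hall : ∀ k ∈ Finset.range n, (1 - η ^ (k + 1)) ∈ P := by
    intro k _
    obtain ⟨i, _, hi⟩ := hμ.eq_pow_of_pow_eq_one (ξ := η ^ (k + 1))
      (by rw [← pow_mul, mul_comm, pow_mul, hη.pow_eq_one, one_pow])
    rw [← hi]
    obtain ⟨c, hc⟩ := sub_dvd_pow_sub_pow 1 μ i
    rw [one_pow] at hc
    rw [hc]
    exact Ideal.mul_mem_right _ _ hk₀P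
  have h2 : ∏ k ∈ Finset.range n, (1 - η ^ (k + 1)) ∈ ∏ _k ∈ Finset.range n, P :=
    Ideal.prod_mem_prod hall
  rw [Finset.prod_const, Finset.card_range, hprod'] at h2
  simpa using h2

theorem c12_le_card_inertia {Ω : Type} [Field Ω] [NumberField Ω] [IsGalois ℚ Ω]
    (ℜ : Ideal (𝓞 Ω)) [hℜ : ℜ.IsPrime] {r : ℕ} (hr : r.Prime) (hrℜ : (r : 𝓞 Ω) ∈ ℜ)
    {η : 𝓞 Ω} (hη : IsPrimitiveRoot η r) :
    r - 1 ≤ Nat.card (Ideal.inertia (Ω ≃ₐ[ℚ] Ω) ℜ) := by
  have h1 := Ideal.card_inertia_eq_ramificationIdxIn (G := Ω ≃ₐ[ℚ] Ω) (ℜ.under ℤ) ℜ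
  have h2 := Ideal.ramificationIdxIn_eq_ramificationIdx (ℜ.under ℤ) ℜ (Ω ≃ₐ[ℚ] Ω)
  rw [h1, h2]
  -- the prime below is `(r)`
  have hr0 : (r : 𝓞 Ω) ≠ 0 := by
    exact_mod_cast hr.ne_zero
  have hrmem : (r : ℤ) ∈ ℜ.under ℤ := by
    rw [Ideal.under_def, Ideal.mem_comap]
    simpa using hrℜ
  have hmap0 : (ℜ.under ℤ).map (algebraMap ℤ (𝓞 Ω)) ≠ ⊥ := by
    intro h
    have h3 : algebraMap ℤ (𝓞 Ω) (r : ℤ) ∈ (ℜ.under ℤ).map (algebraMap ℤ (𝓞 Ω)) :=
      Ideal.mem_map_of_mem _ hrmem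
    rw [h, Ideal.mem_bot] at h3
    apply hr0
    simpa using h3
  have hle : (ℜ.under ℤ).map (algebraMap ℤ (𝓞 Ω)) ≤ ℜ ^ (r - 1) := by
    have hspan : ℜ.under ℤ = Ideal.span {(r : ℤ)} := by
      have hmax : (Ideal.span {(r : ℤ)}).IsMaximal := by
        have hp : Prime (r : ℤ) := Nat.prime_iff_prime_int.mp hr
        exact PrincipalIdealRing.isMaximal_of_irreducible hp.irreducible
      have hle : Ideal.span {(r : ℤ)} ≤ ℜ.under ℤ := by
        rw [Ideal.span_singleton_le_iff_mem]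
        exact hrmem
      have hne : ℜ.under ℤ ≠ ⊤ := Ideal.IsPrime.ne_top inferInstance
      exact (hmax.eq_of_le hne hle).symm
    rw [hspan, Ideal.map_span, Set.image_singleton, Ideal.span_singleton_le_iff_mem]
    have := c12_prime_mem_pow ℜ hr hη hrℜ
    simpa using this
  rw [Ideal.IsDedekindDomain.ramificationIdx_eq_multiplicity (ℜ.under ℤ) ℜ hmap0]
  have hfin : FiniteMultiplicity ℜ ((ℜ.under ℤ).map (algebraMap ℤ (𝓞 Ω))) := by
    apply FiniteMultiplicity.of_not_isUnit _ hmap0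
    rw [Ideal.isUnit_iff]
    exact hℜ.ne_top
  exact hfin.le_multiplicity_of_pow_dvd (Ideal.dvd_iff_le.mpr hle)



theorem c12_natCast_not_mem {R : Type*} [CommRing R] (P : Ideal R) [hP : P.IsPrime]
    {r n : ℕ} (hrP : (r : R) ∈ P) (hcop : n.Coprime r) : (n : R) ∉ P := by
  intro hn
  have h1 : IsCoprime (n : ℤ) (r : ℤ) := Nat.isCoprime_iff_coprime.mpr hcop
  obtain ⟨a, b, hab⟩ := h1
  have h2 : ((a * n + b * r : ℤ) : R) = 1 := by rw [hab]; simp
  have h3 : ((a * n + b * r : ℤ) : R) ∈ P := by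
    push_cast
    exact Ideal.add_mem _ (Ideal.mul_mem_left _ _ hn) (Ideal.mul_mem_left _ _ hrP)
  rw [h2] at h3
  exact hP.ne_top ((Ideal.eq_top_iff_one P).mpr h3)

theorem c12_units_eq_one {m r : ℕ} [NeZero m] (hrm : r ∣ m) (hcop : (m / r).Coprime r)
    (a : (ZMod m)ˣ) (h1 : ZMod.unitsMap (Nat.div_dvd_of_dvd hrm) a = 1)
    (h2 : ZMod.unitsMap hrm a = 1) : a = 1 := by
  have e1 : (((a : ZMod m).val : ℕ) : ZMod (m / r)) = ((1 : ℕ) : ZMod (m / r)) := by
    have := congrArg (fun u : (ZMod (m / r))ˣ => (u : ZMod (m / r))) h1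
    simp only [ZMod.unitsMap_def, Units.coe_map, MonoidHom.coe_coe, ZMod.castHom_apply,
      Units.val_one] at this
    rw [ZMod.natCast_val, this, Nat.cast_one]
  have e2 : (((a : ZMod m).val : ℕ) : ZMod r) = ((1 : ℕ) : ZMod r) := by
    have := congrArg (fun u : (ZMod r)ˣ => (u : ZMod r)) h2
    simp only [ZMod.unitsMap_def, Units.coe_map, MonoidHom.coe_coe, ZMod.castHom_apply,
      Units.val_one] at this
    rw [ZMod.natCast_val, this, Nat.cast_one]
  rw [ZMod.natCast_eq_natCast_iff] at e1 e2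
  have e3 : (a : ZMod m).val ≡ 1 [MOD (m / r) * r] :=
    (Nat.modEq_and_modEq_iff_modEq_mul hcop).mp ⟨e1, e2⟩
  rw [Nat.div_mul_cancel hrm] at e3
  have e4 : (((a : ZMod m).val : ℕ) : ZMod m) = ((1 : ℕ) : ZMod m) :=
    (ZMod.natCast_eq_natCast_iff _ _ _).mpr e3
  rw [ZMod.natCast_zmod_val, Nat.cast_one] at e4
  exact Units.ext e4



/-- an automorphism of `Ω/ℚ` fixing `ζ` is `K`-linear. -/
theorem c12_exists_gam {L : Type} [Field L] [NumberField L] [IsGalois ℚ L] {ζ : L} {m : ℕ}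
    [NeZero m] (σ : Om L m ≃ₐ[ℚ] Om L m)
    (hσ : σ (algebraMap L (Om L m) ζ) = algebraMap L (Om L m) ζ) :
    ∃ g : Gam L ζ m, ∀ x : Om L m, g x = σ x := by
  have h0 : ∀ y : L, y ∈ ℚ⟮ζ⟯ → σ (algebraMap L (Om L m) y) = algebraMap L (Om L m) y := by
    intro y hy
    induction hy using IntermediateField.adjoin_induction with
    | mem x hx =>
      rw [Set.mem_singleton_iff] at hx
      subst hx
      exact hσ
    | algebraMap x =>
      rw [← IsScalarTower.algebraMap_apply ℚ L (Om L m)]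
      exact σ.commutes x
    | add x y _ _ hx hy => rw [map_add, map_add, hx, hy]
    | inv x _ hx => rw [map_inv₀, map_inv₀, hx]
    | mul x y _ _ hx hy => rw [map_mul, map_mul, hx, hy]
  have h : ∀ x : ℚ⟮ζ⟯, σ (algebraMap ℚ⟮ζ⟯ (Om L m) x) = algebraMap ℚ⟮ζ⟯ (Om L m) x := by
    intro x
    have := h0 (x : L) x.2
    rw [IsScalarTower.algebraMap_apply ℚ⟮ζ⟯ L (Om L m)]
    exact this
  exact ⟨AlgEquiv.ofRingEquiv (f := σ.toRingEquiv) h, fun x => rfl⟩


/-- The subgroup `I' = {resL = 1, cyc ≡ 1 mod m/r}` of `Gal(Ω/K)`. -/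
def c12_I' (L : Type) [Field L] [NumberField L] [IsGalois ℚ L] (ζ : L) (m : ℕ) [NeZero m]
    {r : ℕ} (hrm : r ∣ m) : Subgroup (Gam L ζ m) :=
  (resL L ζ m).ker ⊓ ((ZMod.unitsMap (Nat.div_dvd_of_dvd hrm)).comp (cyc L ζ m)).ker

theorem c12_card_I'_le {L : Type} [Field L] [NumberField L] [IsGalois ℚ L] (ζ : L) (m : ℕ)
    [NeZero m] {r : ℕ} (hr : r.Prime) (hrm : r ∣ m) (hcop : (m / r).Coprime r) :
    Nat.card (c12_I' L ζ m hrm) ≤ r - 1 := by
  have : NeZero r := ⟨hr.ne_zero⟩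
  let f : c12_I' L ζ m hrm →* (ZMod r)ˣ :=
    ((ZMod.unitsMap hrm).comp (cyc L ζ m)).comp (c12_I' L ζ m hrm).subtype
  have hf : Function.Injective f := by
    rw [injective_iff_map_eq_one]
    rintro ⟨g, hg⟩ hfg
    have hg1 : resL L ζ m g = 1 := hg.1
    have hg2 : ZMod.unitsMap (Nat.div_dvd_of_dvd hrm) (cyc L ζ m g) = 1 := hg.2
    have hg3 : ZMod.unitsMap hrm (cyc L ζ m g) = 1 := hfg
    have hc : cyc L ζ m g = 1 := c12_units_eq_one hrm hcop _ hg2 hg3
    exact Subtype.ext (gamExt L ζ m g hg1 hc)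
  have h1 := Nat.card_le_card_of_injective f hf
  have h2 : Nat.card (ZMod r)ˣ = r - 1 := by
    rw [Nat.card_eq_fintype_card, ZMod.card_units_eq_totient, Nat.totient_prime hr]
  rw [h2] at h1
  exact h1


theorem c12_inertia_le {p : ℕ} {L : Type} [Field L] [NumberField L] [IsGalois ℚ L] (ζ : L)
    (m : ℕ) [NeZero m] {r : ℕ} (hrm : r ∣ m) (hp : p.Prime) (hζ : IsPrimitiveRoot ζ p)
    (hunr : UnramifiedEverywhere ℚ⟮ζ⟯ L) (hr : r.Prime) (hrp : r ≠ p)
    (hcop : (m / r).Coprime r)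
    (ℜ : Ideal (𝓞 (Om L m))) [hℜ : ℜ.IsPrime] (hrℜ : (r : 𝓞 (Om L m)) ∈ ℜ)
    (σ : Om L m ≃ₐ[ℚ] Om L m) (hσ : σ ∈ Ideal.inertia (Om L m ≃ₐ[ℚ] Om L m) ℜ) :
    ∃ g ∈ c12_I' L ζ m hrm, AlgEquiv.restrictScalarsHom ℚ g = σ := by
  have hσ' : ∀ x : 𝓞 (Om L m), σ • x - x ∈ ℜ := hσ
  have : NeZero p := ⟨hp.ne_zero⟩
  -- (a) `σ` fixes `ζ`
  have hζΩ : IsPrimitiveRoot (algebraMap L (Om L m) ζ) p :=
    hζ.map_of_injective (algebraMap L (Om L m)).injective
  have hZ : IsPrimitiveRoot hζΩ.toInteger p := hζΩ.toInteger_isPrimitiveRoot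
  have hpℜ : ((p : ℕ) : 𝓞 (Om L m)) ∉ ℜ :=
    c12_natCast_not_mem ℜ hrℜ ((Nat.coprime_primes hp hr).mpr (Ne.symm hrp))
  have hσZ : σ • hζΩ.toInteger = hζΩ.toInteger := by
    have h1 : (σ • hζΩ.toInteger) ^ p = 1 := by
      rw [← smul_pow', hZ.pow_eq_one, smul_one]
    obtain ⟨i, _, e⟩ := hZ.eq_pow_of_pow_eq_one h1
    have h2 : hζΩ.toInteger ^ i - hζΩ.toInteger ^ 1 ∈ ℜ := by
      rw [e, pow_one]
      exact hσ' _
    have h3 := c12_modEq_of_pow_sub_pow_mem ℜ hZ hpℜ i 1 h2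
    rw [← e]
    have h4 : hζΩ.toInteger ^ i = hζΩ.toInteger ^ 1 := by
      rw [← pow_mod_orderOf hζΩ.toInteger i, ← pow_mod_orderOf hζΩ.toInteger 1, ← hZ.eq_orderOf]
      have h5 : i % p = 1 % p := h3
      rw [h5]
    rw [h4, pow_one]
  have hσζ : σ (algebraMap L (Om L m) ζ) = algebraMap L (Om L m) ζ := by
    have := congrArg (fun z : 𝓞 (Om L m) => (z : Om L m)) hσZ
    exact this
  -- (b) `σ` comes from `g ∈ Gal(Ω/K)`
  obtain ⟨g, hg⟩ := c12_exists_gam σ hσζ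
  have hgσ : AlgEquiv.restrictScalarsHom ℚ g = σ := AlgEquiv.ext hg
  refine ⟨g, ⟨?_, ?_⟩, hgσ⟩
  · -- (c) `resL g = 1`
    show resL L ζ m g = 1
    have hPL : (ℜ.comap (algebraMap (𝓞 L) (𝓞 (Om L m)))).IsPrime := Ideal.comap_isPrime _ _
    have hPL0 : ℜ.comap (algebraMap (𝓞 L) (𝓞 (Om L m))) ≠ ⊥ := by
      intro h
      have h1 : (r : 𝓞 L) ∈ ℜ.comap (algebraMap (𝓞 L) (𝓞 (Om L m))) := by
        rw [Ideal.mem_comap, map_natCast]
        exact hrℜ
      rw [h, Ideal.mem_bot] at h1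
      exact hr.ne_zero (by exact_mod_cast h1)
    refine hunr _ hPL hPL0 (resL L ζ m g) ?_
    intro x
    refine ⟨(resL L ζ m g) • x - x, ?_, rfl⟩
    rw [Ideal.mem_comap]
    have h2 : algebraMap (𝓞 L) (𝓞 (Om L m)) ((resL L ζ m g) • x - x) =
        σ • (algebraMap (𝓞 L) (𝓞 (Om L m)) x) - algebraMap (𝓞 L) (𝓞 (Om L m)) x := by
      apply RingOfIntegers.ext
      show algebraMap L (Om L m) ((resL L ζ m g) (x : L) - (x : L)) =
        σ (algebraMap L (Om L m) (x : L)) - algebraMap L (Om L m) (x : L)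
      rw [map_sub, resL_commutes, hg]
    rw [h2]
    exact hσ' _
  · -- (d) `cyc g ≡ 1 mod m / r`
    show ((ZMod.unitsMap (Nat.div_dvd_of_dvd hrm)).comp (cyc L ζ m)) g = 1
    have hZm : IsPrimitiveRoot (zetaOm_spec L m).toInteger m :=
      (zetaOm_spec L m).toInteger_isPrimitiveRoot
    set Zm : 𝓞 (Om L m) := (zetaOm_spec L m).toInteger with hZmdef
    have hη : IsPrimitiveRoot (Zm ^ r) (m / r) :=
      hZm.pow (NeZero.pos m) (Nat.mul_div_cancel' hrm).symm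
    set c : ℕ := ((cyc L ζ m g : (ZMod m)ˣ) : ZMod m).val with hc
    have hσZm : σ • Zm = Zm ^ c := by
      apply RingOfIntegers.ext
      show σ (zetaOm L m) = (zetaOm L m) ^ c
      rw [← hg, cyc_spec]
    have h1 : (Zm ^ r) ^ c - (Zm ^ r) ^ 1 ∈ ℜ := by
      have h2 : (Zm ^ r) ^ c = σ • (Zm ^ r) := by
        rw [smul_pow', hσZm, ← pow_mul, ← pow_mul, mul_comm]
      rw [h2, pow_one]
      exact hσ' _
    have hnℜ : ((m / r : ℕ) : 𝓞 (Om L m)) ∉ ℜ := c12_natCast_not_mem ℜ hrℜ hcop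
    have h3 := c12_modEq_of_pow_sub_pow_mem ℜ hη hnℜ c 1 h1
    apply Units.ext
    rw [MonoidHom.comp_apply, ZMod.unitsMap_def, Units.coe_map, MonoidHom.coe_coe,
      ZMod.castHom_apply, Units.val_one, ← ZMod.natCast_val, ← hc]
    have h4 := (ZMod.natCast_eq_natCast_iff c 1 (m / r)).mpr h3
    rw [h4, Nat.cast_one]

theorem inertiaAtR : InertiaAtR := by
  intro p L _ _ _ ζ m _ r hrm hp hζ hunr hr hrp hcop g ℜ hres hcyc hℜ hrℜ x
  have := hℜ
  -- the primitive `r`-th root of unity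
  have hZm : IsPrimitiveRoot (zetaOm_spec L m).toInteger m :=
    (zetaOm_spec L m).toInteger_isPrimitiveRoot
  have hη : IsPrimitiveRoot ((zetaOm_spec L m).toInteger ^ (m / r)) r :=
    hZm.pow (NeZero.pos m) (Nat.div_mul_cancel hrm).symm
  have hge := c12_le_card_inertia ℜ hr hrℜ hη
  have hle := c12_card_I'_le ζ m hr hrm hcop
  set S : Subgroup (Om L m ≃ₐ[ℚ] Om L m) :=
    (c12_I' L ζ m hrm).map (AlgEquiv.restrictScalarsHom ℚ) with hS
  have hsub : Ideal.inertia (Om L m ≃ₐ[ℚ] Om L m) ℜ ≤ S := by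
    intro σ hσ
    obtain ⟨g', hg', hgσ⟩ := c12_inertia_le ζ m hrm hp hζ hunr hr hrp hcop ℜ hrℜ σ hσ
    exact ⟨g', hg', hgσ⟩
  have hcardS : Nat.card S = Nat.card (c12_I' L ζ m hrm) :=
    Subgroup.card_map_of_injective (AlgEquiv.restrictScalarsHom_injective ℚ)
  have heq : Ideal.inertia (Om L m ≃ₐ[ℚ] Om L m) ℜ = S := by
    apply Subgroup.eq_of_le_of_card_ge hsub
    rw [hcardS]
    exact hle.trans hge
  have hgS : AlgEquiv.restrictScalarsHom ℚ g ∈ S :=
    ⟨g, ⟨hres, hcyc⟩, rfl⟩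
  rw [← heq] at hgS
  have := hgS x
  exact ⟨_, this, rfl⟩

end Fermat.Agent.S14.Cross
end
end MergeWrap_S14_Crossing_InertiaAtR
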